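import Mathlib
import Fermat.Agent.LT.T2.H465.GPSCoreCut
import Fermat.Agent.LT.T2.H511.FDSpec

/-!
# Row LT, tower T2, leaf T2.23a `LeafFDCore` (= T2.03a `LeafFD` in the core form): THE TOP,
# class-generic (helper250)

OFF-MAIN.  Typed against byte-identical copies of `LT/T2/H465/GPSCoreCut.lean` (helper465,
sha256 `b3d0871d…`), `LT/T2/H511/FDSpec.lean` (helper511, `ad79b18a…`), `LT/T2/H386/GPSSpec.lean`
(`fb5aa9e8…`), `LT/T2/Spec.lean` v3 (`b934629a…`), `LT/T1/Spec.lean` (`e8ae48d6…`), A0 (`66d3374a…`).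

`fdBoundP_of250`: for ANY class `P` of functions which are left invariant under `U(𝔫)`, the
finite difference bound follows from `T1.SiegelCompactC`, `H511.ContrC`, `H511.ConjAlgC`,
`H511.CptC` and the uniform smoothness `UnifSmoothP250 P` (= `H511.UnifSmoothC` for the class `P`).

* `leafFDCore_of250 : LeafContr → LeafUnifSmoothCore250 → LeafConjAlg → LeafCpt → H465.LeafFDCore`
  (class `H465.IsTestCore`: no condition at `K_∞`);
* `leafFD_of250 : LeafContr → LeafUnifSmooth → LeafConjAlg → LeafCpt → H386.LeafFD`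
  (class `T2.IsTestFn`; the sub-leaves of helper511 VERBATIM).

The finite parts of the steps are dropped ONE AT A TIME (the function `y ↦ f (ω⁻¹ n(y) ω h)` is
invariant under the translation by the finite part of each single step, at every point), so
`ContrC` is used for the compact set `-𝒟` only and no sum over sublists occurs.
-/

set_option autoImplicit false
set_option linter.unusedSectionVars false

open IsDedekindDomain NumberField MeasureTheory
open Fermat.Agent.LT.H556.A0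
open Fermat.Agent.LT

noncomputable section
namespace Fermat.Agent.LT.T2.H250

open Fermat.Agent.LT.T2 Fermat.Agent.LT.T2.H386 Fermat.Agent.LT.T2.H511

variable {K : Type} [Field K] [NumberField K]

/-! ## 1. The unipotent elements -/

theorem unip386_add250 (x y : Adl K) : unip386 (x + y) = unip386 x * unip386 y := by
  apply Units.ext
  rw [Units.val_mul, unip386_coe, unip386_coe, unip386_coe]
  ext i j
  fin_cases i <;> fin_cases j <;> simp [Matrix.mul_apply, Fin.sum_univ_two, add_comm]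

theorem unip386_zero250 : unip386 (0 : Adl K) = 1 := by
  apply Units.ext
  rw [unip386_coe]
  ext i j
  fin_cases i <;> fin_cases j <;> simp

/-- `ω⁻¹ n(y - u) ω h = (ω⁻¹ n(-u) ω) (ω⁻¹ n(y) ω h)`. -/
theorem conj_sub250 (ω h : G K) (y u : Adl K) :
    ω⁻¹ * unip386 (y - u) * ω * h = (ω⁻¹ * unip386 (-u) * ω) * (ω⁻¹ * unip386 y * ω * h) := by
  have : y - u = -u + y := by ring
  rw [this, unip386_add250]
  group

/-- The conjugation formula of step 3. -/
theorem conj_formula250 {d z a ω : G K} {m : ℕ} {σ : Adl K}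
    (hd : ∀ u : Adl K, d * unip386 u * d⁻¹ = unip386 ((m : Adl K) * u))
    (hz : ∀ u : Adl K, z⁻¹ * unip386 u * z = unip386 u)
    (ha : ∀ u : Adl K, a⁻¹ * unip386 u * a = unip386 (u * σ)) (v : Adl K) :
    conjUnip386 (d⁻¹ * z * a * ω) v = ω⁻¹ * unip386 ((m : Adl K) * v * σ) * ω := by
  unfold conjUnip386
  have e1 : (d⁻¹ * z * a * ω)⁻¹ * unip386 v * (d⁻¹ * z * a * ω)
      = ω⁻¹ * (a⁻¹ * (z⁻¹ * (d * unip386 v * d⁻¹) * z) * a) * ω := by group
  rw [e1, hd, hz, ha]

/-! ## 2. Forward differences along conjugates = backward differences on the adeles -/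

theorem fdiff_eq_bdiff250 (x' ω h : G K) (L : Adl K → Adl K)
    (hL : ∀ v : Adl K, conjUnip386 x' (-v) = ω⁻¹ * unip386 (-(L v)) * ω)
    (vs : List (Adl K)) (g : G K → ℂ) (y : Adl K) :
    fdiff386 x' vs g (ω⁻¹ * unip386 y * ω * h)
      = bdiff511 (vs.map L) (fun y => g (ω⁻¹ * unip386 y * ω * h)) y := by
  induction vs generalizing g with
  | nil => rfl
  | cons v vs ih =>
    show fdiff386 x' vs (diff386 x' v g) (ω⁻¹ * unip386 y * ω * h)
      = bdiff511 (vs.map L)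
          (fun y => g (ω⁻¹ * unip386 y * ω * h) - g (ω⁻¹ * unip386 (y - L v) * ω * h)) y
    rw [ih (diff386 x' v g)]
    congr 1
    funext y'
    show g (ω⁻¹ * unip386 y' * ω * h) - g (conjUnip386 x' (-v) * (ω⁻¹ * unip386 y' * ω * h)) = _
    rw [hL v, conj_sub250]

theorem infPart_add_finPart250 (u : Adl K) : infPart511 u + finPart511 u = u := by
  apply Prod.ext
  · show u.1 + 0 = u.1
    rw [add_zero]
  · show 0 + u.2 = u.2
    rw [zero_add]

/-- The finite parts of the steps can be dropped, one at a time. -/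
theorem bdiff_infPart250 (us : List (Adl K)) (Ψ : Adl K → ℂ)
    (hinv : ∀ u ∈ us, ∀ y : Adl K, Ψ (y - finPart511 u) = Ψ y) :
    bdiff511 us Ψ = bdiff511 (us.map infPart511) Ψ := by
  induction us generalizing Ψ with
  | nil => rfl
  | cons u us ih =>
    show bdiff511 us (fun y => Ψ y - Ψ (y - u))
      = bdiff511 (us.map infPart511) (fun y => Ψ y - Ψ (y - infPart511 u))
    have h1 : (fun y => Ψ y - Ψ (y - u)) = (fun y => Ψ y - Ψ (y - infPart511 u)) := by
      funext y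
      have : y - u = (y - infPart511 u) - finPart511 u := by
        conv_lhs => rw [← infPart_add_finPart250 u]
        ring
      rw [this, hinv u (List.mem_cons_self) (y - infPart511 u)]
    rw [h1]
    apply ih
    intro u' hu' y
    show Ψ (y - finPart511 u') - Ψ (y - finPart511 u' - infPart511 u)
      = Ψ y - Ψ (y - infPart511 u)
    rw [hinv u' (List.mem_cons_of_mem _ hu') y, sub_right_comm,
      hinv u' (List.mem_cons_of_mem _ hu') (y - infPart511 u)]

/-! ## 3. The class-generic statements -/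

/-- `H511.UnifSmoothC` for a class `P` of functions (`H511.UnifSmoothC K 𝔫` is
`UnifSmoothP250 K (IsTestFn 𝔫)`, by `Iff.rfl`). -/
def UnifSmoothP250 (K : Type) [Field K] [NumberField K] (P : (G K → ℂ) → Prop) : Prop :=
  ∀ f : G K → ℂ, P f → ∀ Ω : Set (G K), IsCompact Ω → ∀ (R : ℝ) (M : ℕ),
    ∃ C : ℝ, 0 ≤ C ∧ ∀ ω ∈ Ω, ∀ h : G K, ∀ ε : ℝ, 0 < ε → ε ≤ 1 →
      ∀ τs : List (Adl K), τs.length = M →
        (∀ τ ∈ τs, τ.2 = 0 ∧ ∀ w : InfinitePlace K, ‖τ.1 w‖ ≤ ε * R) →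
        ‖bdiff511 τs (fun y => f (ω⁻¹ * unip386 y * ω * h)) 0‖ ≤ C * ε ^ M

/-- `H386.FDBound` for a class `P` of functions (`H386.FDBound K 𝔫` is
`FDBoundP250 K (IsTestFn 𝔫)` and `H465.FDBoundCore K 𝔫` is `FDBoundP250 K (H465.IsTestCore 𝔫)`,
by `Iff.rfl`). -/
def FDBoundP250 (K : Type) [Field K] [NumberField K] (P : (G K → ℂ) → Prop) : Prop :=
  ∀ f : G K → ℂ, P f → ∀ 𝒟 : Set (Adl K), IsCompact 𝒟 → ∀ N : ℕ,
    ∃ (C c : ℝ) (M : ℕ) (W : Set (G K)), 0 ≤ C ∧ 0 < c ∧ IsCompact W ∧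
      ∀ (x : G K) (t : ℝ), T1.HasHeight K x t → c ≤ t →
        ∃ (β : GL (Fin 2) K) (x' : G K), T1.IsUpperRat K β ∧ x = T1.ratG K β * x' ∧
          (∀ v ∈ 𝒟, conjUnip386 x' v ∈ W) ∧
          ∀ vs : List (Adl K), vs.length = M → (∀ v ∈ vs, v ∈ 𝒟) →
            ∀ h : G K, ‖fdiff386 x' vs f h‖ * t ^ N ≤ C

theorem unifSmoothC_iff250 (𝔫 : Ideal (𝓞 K)) :
    UnifSmoothC K 𝔫 ↔ UnifSmoothP250 K (IsTestFn 𝔫) := Iff.rfl

theorem fdBound_iff250 (𝔫 : Ideal (𝓞 K)) :
    H386.FDBound K 𝔫 ↔ FDBoundP250 K (IsTestFn 𝔫) := Iff.rfl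

theorem fdBoundCore_iff250 (𝔫 : Ideal (𝓞 K)) :
    H465.FDBoundCore K 𝔫 ↔ FDBoundP250 K (H465.IsTestCore 𝔫) := Iff.rfl

/-! ## 4. THE TOP, class-generic -/

/-- The finite part of the step `m v σ` (`σ` with finite part `1`). -/
theorem neg_finPart_step250 (m : ℕ) (v σ : Adl K) (hσ : σ.2 = 1) :
    -finPart511 ((m : Adl K) * v * σ) = finPart511 ((m : Adl K) * (-v)) := by
  apply Prod.ext
  · show -(0 : InfiniteAdeleRing K) = 0
    rw [neg_zero]
  · show -(((m : Adl K)).2 * v.2 * σ.2) = ((m : Adl K)).2 * (-v.2)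
    rw [hσ, mul_one, mul_neg]

/-- **The finite difference bound for a class `P` of left `U(𝔫)`-invariant functions**, from
reduction theory (`T1.SiegelCompactC`) and the four facts `ContrC`, `UnifSmoothP250 P`,
`ConjAlgC`, `CptC`.  (The computation of helper511 `LT/T2/H511/FDTop.lean` for the class
`IsTestFn`; here the finite parts of the steps are dropped one at a time.) -/
theorem fdBoundP_of250 {𝔫 : Ideal (𝓞 K)} (P : (G K → ℂ) → Prop)
    (hPleft : ∀ f : G K → ℂ, P f → ∀ u : G K, InLevelGroup 𝔫 u → ∀ g : G K, f (u * g) = f g)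
    (hS : T1.SiegelCompactC K) (hA : ContrC K 𝔫) (hB : UnifSmoothP250 K P)
    (hC : ConjAlgC K) (hD : CptC K) : FDBoundP250 K P := by
  intro f hf 𝒟 h𝒟 N
  obtain ⟨hcpt1, hcpt2, hcpt3, -⟩ := hD
  obtain ⟨hAlg1, hAlg2, hAlg3⟩ := hC
  -- reduction theory
  obtain ⟨Ω, m₀, M₀, hΩ, hm₀, -, hSiegel⟩ := hS 1 one_pos
  have hnpos : 0 < Module.finrank ℚ K := Module.finrank_pos
  -- the integer `m`
  have hneg : IsCompact (-𝒟) := h𝒟.neg
  obtain ⟨m, hm, hcontr⟩ := hA Ω hΩ (-𝒟) hneg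
  -- the bound `R` of the infinite components of `m 𝒟`
  have h𝒟m : IsCompact ((fun v : Adl K => (m : Adl K) * v) '' 𝒟) :=
    h𝒟.image (continuous_const.mul continuous_id)
  obtain ⟨R, hR0, hR⟩ := hcpt2 _ h𝒟m
  -- uniform smoothness
  obtain ⟨C₁, hC₁0, hUS⟩ := hB f hf Ω hΩ R (Module.finrank ℚ K * N)
  -- the compact set `W`
  have hW : IsCompact (conjSet511 Ω (box511 𝒟 R m)) := hcpt1 Ω hΩ _ (hcpt3 𝒟 h𝒟 R m)
  refine ⟨C₁ / m₀ ^ N, max 1 (1 / m₀), Module.finrank ℚ K * N, conjSet511 Ω (box511 𝒟 R m),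
    div_nonneg hC₁0 (pow_nonneg hm₀.le N), lt_max_of_lt_left one_pos, hW, ?_⟩
  intro x t hx ht
  have ht1 : 1 ≤ t := le_trans (le_max_left _ _) ht
  have ht2 : 1 / m₀ ≤ t := le_trans (le_max_right _ _) ht
  have htpos : 0 < t := lt_of_lt_of_le one_pos ht1
  obtain ⟨β₀, z, a, ω, s, hβ₀, hz, hs, ha, hω, hxeq, hs1, -⟩ := hSiegel x t hx ht1
  -- `s ≥ 1`
  have hsn : 1 ≤ s ^ Module.finrank ℚ K := by
    have : 1 ≤ m₀ * t := by
      have := mul_le_mul_of_nonneg_left ht2 hm₀.le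
      rwa [mul_one_div_cancel hm₀.ne'] at this
    exact le_trans this hs1
  have hs_one : 1 ≤ s := by
    by_contra hlt
    rw [not_le] at hlt
    have : s ^ Module.finrank ℚ K < 1 := pow_lt_one₀ hs.le hlt hnpos.ne'
    exact absurd hsn (not_le.2 this)
  -- the conjugations
  obtain ⟨d, hd, hdconj⟩ := hAlg1 m hm
  obtain ⟨σ, hσ2, hσn, haconj⟩ := hAlg3 a s hs ha
  have hzconj := hAlg2 z hz
  have hconj : ∀ v : Adl K, conjUnip386 ((T1.ratG K d)⁻¹ * z * a * ω) v
      = ω⁻¹ * unip386 ((m : Adl K) * v * σ) * ω :=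
    fun v => conj_formula250 hdconj hzconj haconj v
  -- the upper triangular rational element
  have hβ : T1.IsUpperRat K (β₀ * d) := by
    unfold T1.IsUpperRat at hβ₀ hd ⊢
    rw [Matrix.GeneralLinearGroup.coe_mul, Matrix.mul_apply, Fin.sum_univ_two, hβ₀, hd]
    simp
  have hxβ : x = T1.ratG K (β₀ * d) * ((T1.ratG K d)⁻¹ * z * a * ω) := by
    rw [hxeq, map_mul]
    group
  have hε0 : 0 < s⁻¹ := inv_pos.2 hs
  have hε1 : s⁻¹ ≤ 1 := inv_le_one_of_one_le₀ hs_one
  -- the norm of the infinite components of a step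
  have hnorm : ∀ v ∈ 𝒟, ∀ w : InfinitePlace K,
      ‖((m : Adl K) * v * σ).1 w‖ ≤ s⁻¹ * R := by
    intro v hv w
    have e : (((m : Adl K) * v * σ).1 w) = ((m : Adl K) * v).1 w * σ.1 w := rfl
    rw [e, norm_mul, hσn w, mul_comm]
    exact mul_le_mul_of_nonneg_left (hR _ ⟨v, hv, rfl⟩ w) hε0.le
  refine ⟨β₀ * d, (T1.ratG K d)⁻¹ * z * a * ω, hβ, hxβ, ?_, ?_⟩
  · -- the conjugates lie in `W`
    intro v hv
    rw [hconj v]
    refine ⟨ω, hω, (m : Adl K) * v * σ, ⟨?_, v, hv, ?_⟩, rfl⟩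
    · intro w
      calc ‖((m : Adl K) * v * σ).1 w‖ ≤ s⁻¹ * R := hnorm v hv w
        _ ≤ 1 * R := mul_le_mul_of_nonneg_right hε1 hR0
        _ = R := one_mul R
    · have e : (((m : Adl K) * v * σ).2) = ((m : Adl K) * v).2 * σ.2 := rfl
      rw [e, hσ2, mul_one]
  · -- the bound
    intro vs hvsM hvs h
    have hL : ∀ v : Adl K, conjUnip386 ((T1.ratG K d)⁻¹ * z * a * ω) (-v)
        = ω⁻¹ * unip386 (-((m : Adl K) * v * σ)) * ω := by
      intro v
      rw [hconj (-v)]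
      congr 3
      ring
    have e0 : fdiff386 ((T1.ratG K d)⁻¹ * z * a * ω) vs f h
        = bdiff511 (vs.map (fun v => (m : Adl K) * v * σ))
            (fun y => f (ω⁻¹ * unip386 y * ω * h)) 0 := by
      have := fdiff_eq_bdiff250 ((T1.ratG K d)⁻¹ * z * a * ω) ω h
        (fun v => (m : Adl K) * v * σ) hL vs f 0
      rw [unip386_zero250] at this
      have e : ω⁻¹ * 1 * ω * h = h := by group
      rwa [e] at this
    -- the finite parts of the steps can be dropped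
    have hinv : ∀ u ∈ vs.map (fun v => (m : Adl K) * v * σ), ∀ y : Adl K,
        (fun y => f (ω⁻¹ * unip386 y * ω * h)) (y - finPart511 u)
          = (fun y => f (ω⁻¹ * unip386 y * ω * h)) y := by
      intro u hu y
      obtain ⟨v, hv, rfl⟩ := List.mem_map.1 hu
      show f (ω⁻¹ * unip386 (y - finPart511 ((m : Adl K) * v * σ)) * ω * h)
        = f (ω⁻¹ * unip386 y * ω * h)
      rw [conj_sub250, neg_finPart_step250 m v σ hσ2]
      exact hPleft f hf _ (hcontr ω hω (-v) (Set.neg_mem_neg.2 (hvs v hv))) _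
    have e1 := bdiff_infPart250 (vs.map (fun v => (m : Adl K) * v * σ))
      (fun y => f (ω⁻¹ * unip386 y * ω * h)) hinv
    -- uniform smoothness with `ε = 1 / s`
    have hτ : ∀ τ ∈ (vs.map (fun v => (m : Adl K) * v * σ)).map infPart511,
        τ.2 = 0 ∧ ∀ w : InfinitePlace K, ‖τ.1 w‖ ≤ s⁻¹ * R := by
      intro τ hτ
      obtain ⟨u, hu, rfl⟩ := List.mem_map.1 hτ
      obtain ⟨v, hv, rfl⟩ := List.mem_map.1 hu
      exact ⟨rfl, fun w => hnorm v (hvs v hv) w⟩
    have hbound := hUS ω hω h s⁻¹ hε0 hε1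
      ((vs.map (fun v => (m : Adl K) * v * σ)).map infPart511)
      (by rw [List.length_map, List.length_map]; exact hvsM) hτ
    rw [e0, e1]
    -- arithmetic
    have hsM : (s⁻¹) ^ (Module.finrank ℚ K * N) = ((s ^ Module.finrank ℚ K) ^ N)⁻¹ := by
      rw [pow_mul, inv_pow, inv_pow]
    have hmt : (m₀ * t) ^ N ≤ (s ^ Module.finrank ℚ K) ^ N :=
      pow_le_pow_left₀ (by positivity) hs1 N
    have hpos1 : 0 < (m₀ * t) ^ N := by positivity
    have h3 : ((s ^ Module.finrank ℚ K) ^ N)⁻¹ ≤ ((m₀ * t) ^ N)⁻¹ := inv_anti₀ hpos1 hmt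
    calc ‖bdiff511 ((vs.map (fun v => (m : Adl K) * v * σ)).map infPart511)
            (fun y => f (ω⁻¹ * unip386 y * ω * h)) 0‖ * t ^ N
        ≤ (C₁ * (s⁻¹) ^ (Module.finrank ℚ K * N)) * t ^ N :=
          mul_le_mul_of_nonneg_right hbound (pow_nonneg htpos.le N)
      _ ≤ (C₁ * ((m₀ * t) ^ N)⁻¹) * t ^ N := by
          rw [hsM]
          exact mul_le_mul_of_nonneg_right (mul_le_mul_of_nonneg_left h3 hC₁0)
            (pow_nonneg htpos.le N)
      _ = C₁ / m₀ ^ N := by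
          rw [mul_pow]
          field_simp

/-! ## 5. The two leaves -/

/-- **T2.23a.2** = T2.03a.2 (US) for the core class `H465.IsTestCore`: the proof of
`H511.LeafUnifSmooth` (memo of helper386 (ii), (iii); helper437 `LT/T2/H437/USSpec.lean`) uses of
the test function the fields `cont`, `smooth`, `cpt`, `level_right` only. -/
def LeafUnifSmoothCore250 (K : Type) [Field K] [NumberField K] : Prop :=
  T1.T1Out K → ∀ 𝔫 : Ideal (𝓞 K), 𝔫 ≠ ⊥ → UnifSmoothP250 K (H465.IsTestCore 𝔫)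

/-- The core form of US gives the form of helper511. -/
theorem leafUnifSmooth_of_core250 (h : LeafUnifSmoothCore250 K) : LeafUnifSmooth K :=
  fun hT1 𝔫 h𝔫 f hf => h hT1 𝔫 h𝔫 f (H465.isTestCore_of_isTestFn hf)

/-- **THE TOP of T2.23a**: `H465.LeafFDCore` from the sub-leaves of helper511 (CONTR, ALG, CPT
verbatim) and US in the core form. -/
theorem leafFDCore_of250 (hA : LeafContr K) (hB : LeafUnifSmoothCore250 K) (hC : LeafConjAlg K)
    (hD : LeafCpt K) : H465.LeafFDCore K :=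
  fun hT1 𝔫 h𝔫 =>
    fdBoundP_of250 (H465.IsTestCore 𝔫) (fun _ hf => hf.level_left) hT1.siegelCompact
      (hA hT1 𝔫 h𝔫) (hB hT1 𝔫 h𝔫) hC (hD hT1)

/-- **THE TOP of T2.03a** (a second proof of helper511's `leafFD_of_leaves511`; the sub-leaves
verbatim). -/
theorem leafFD_of250 (hA : LeafContr K) (hB : LeafUnifSmooth K) (hC : LeafConjAlg K)
    (hD : LeafCpt K) : H386.LeafFD K :=
  fun hT1 𝔫 h𝔫 =>
    fdBoundP_of250 (IsTestFn 𝔫) (fun _ hf => hf.level_left) hT1.siegelCompact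
      (hA hT1 𝔫 h𝔫) (hB hT1 𝔫 h𝔫) hC (hD hT1)

/-- All the leaves of T2.03a / T2.23a from the core leaves. -/
theorem leafFD_of_core250 (hA : LeafContr K) (hB : LeafUnifSmoothCore250 K)
    (hC : LeafConjAlg K) (hD : LeafCpt K) : H386.LeafFD K :=
  H465.leafFD_of_core (leafFDCore_of250 hA hB hC hD)

end Fermat.Agent.LT.T2.H250

end
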