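import Mathlib
import Fermat.Agent.LT.T2.H941.SmoSpec

/-!
# Row LT, tower T2, station T2.10 (SMO_AA), sub-leaf T2.10.13 `PairC` (helper250)

OFF-MAIN.  `leaf13_250 : Fermat.Agent.LT.T2.H941.Leaf13 K` for every number field `K`, against the
bytes `LT/T2/H941/SmoSpec.lean` (helper941, sha256 `41255efa7193…`), `LT/T2/Spec.lean` (helper130,
`1b305586…`), `LT/T1/Spec.lean` (helper54, `e8ae48d6…`), `LT/H556/A0.lean` (`66d3374a…`).

The Petersson pairing `T2.pair F` of a frame on the class `IsAut0` is additive in the first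
variable, definite, and invariant under ALL right translations.
-/

set_option autoImplicit false
set_option linter.unusedSectionVars false

open IsDedekindDomain NumberField MeasureTheory AutomorphicForm
open Fermat.Agent.LT.H556.A0
open Fermat.Agent.LT

noncomputable section
namespace Fermat.Agent.LT.T2.H250

variable {K : Type} [Field K] [NumberField K]

attribute [local instance] Fermat.Agent.LT.T2.borelG
attribute [local instance] Classical.propDecidable

/-! ## 1. Real scalars at the infinite places -/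

/-- Every real number is in the image of the completion at an infinite place. -/
theorem exists_real_completion250 (w : InfinitePlace K) (r : ℝ) :
    ∃ x : w.Completion, InfinitePlace.Completion.extensionEmbedding w x = (r : ℂ) := by
  have hcl : IsClosed (Set.range (InfinitePlace.Completion.extensionEmbedding w)) :=
    (InfinitePlace.Completion.isometry_extensionEmbedding w).isClosedEmbedding.isClosed_range
  have hsub : Set.range (fun q : ℚ => ((q : ℝ) : ℂ))
      ⊆ Set.range (InfinitePlace.Completion.extensionEmbedding w) := by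
    rintro _ ⟨q, rfl⟩
    refine ⟨(q : w.Completion), ?_⟩
    rw [map_ratCast]
    simp
  have h1 : r ∈ closure (Set.range ((↑) : ℚ → ℝ)) := Rat.denseRange_cast r
  have h2 : (r : ℂ) ∈ closure (Set.range (fun q : ℚ => ((q : ℝ) : ℂ))) := by
    have h3 := map_mem_closure Complex.continuous_ofReal h1
      (t := Set.range (fun q : ℚ => ((q : ℝ) : ℂ))) (by
        rintro _ ⟨q, rfl⟩
        exact ⟨q, rfl⟩)
    exact h3
  exact closure_minimal hsub hcl h2

/-- The element `r` of the completion at `w`. -/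
def rComp250 (w : InfinitePlace K) (r : ℝ) : w.Completion :=
  Classical.choose (exists_real_completion250 w r)

theorem ext_rComp250 (w : InfinitePlace K) (r : ℝ) :
    InfinitePlace.Completion.extensionEmbedding w (rComp250 w r) = (r : ℂ) :=
  Classical.choose_spec (exists_real_completion250 w r)

theorem rComp250_mul (w : InfinitePlace K) (r s : ℝ) :
    rComp250 w (r * s) = rComp250 w r * rComp250 w s := by
  apply (InfinitePlace.Completion.extensionEmbedding w).injective
  rw [map_mul, ext_rComp250, ext_rComp250, ext_rComp250, Complex.ofReal_mul]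

theorem rComp250_one (w : InfinitePlace K) : rComp250 w 1 = 1 := by
  apply (InfinitePlace.Completion.extensionEmbedding w).injective
  rw [map_one, ext_rComp250, Complex.ofReal_one]

theorem norm_rComp250 (w : InfinitePlace K) (r : ℝ) : ‖rComp250 w r‖ = |r| := by
  have h1 := (InfinitePlace.Completion.isometry_extensionEmbedding w).norm_map_of_map_zero
    (map_zero _) (rComp250 w r)
  rw [← h1, ext_rComp250]
  simp

/-- The adele which is `r` at every infinite place and `1` at every finite place. -/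
def rAdele250 (r : ℝ) : Adl K :=
  ((fun w => rComp250 w r : InfiniteAdeleRing K), (1 : FiniteAdeleRing (𝓞 K) K))

theorem rAdele250_fst (r : ℝ) (w : InfinitePlace K) : (rAdele250 (K := K) r).1 w = rComp250 w r :=
  rfl

theorem rAdele250_snd (r : ℝ) : (rAdele250 (K := K) r).2 = 1 := rfl

theorem rAdele250_mul (r s : ℝ) :
    rAdele250 (K := K) r * rAdele250 s = rAdele250 (r * s) := by
  apply Prod.ext
  · funext w
    show rComp250 w r * rComp250 w s = rComp250 w (r * s)
    rw [rComp250_mul]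
  · show (1 : FiniteAdeleRing (𝓞 K) K) * 1 = 1
    rw [one_mul]

theorem rAdele250_one : rAdele250 (K := K) 1 = 1 := by
  apply Prod.ext
  · funext w
    show rComp250 w 1 = 1
    rw [rComp250_one]
  · rfl

/-- The idele which is `r ≠ 0` at every infinite place and `1` at every finite place. -/
def rIdele250 (r : ℝ) (hr : r ≠ 0) : (Adl K)ˣ where
  val := rAdele250 r
  inv := rAdele250 r⁻¹
  val_inv := by rw [rAdele250_mul, mul_inv_cancel₀ hr, rAdele250_one]
  inv_val := by rw [rAdele250_mul, inv_mul_cancel₀ hr, rAdele250_one]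

/-- The module of the idele `rIdele250 r`. -/
theorem adNorm_rIdele250 (r : ℝ) (hr : r ≠ 0) :
    T1.adNorm K ((rIdele250 (K := K) r hr : (Adl K)ˣ) : Adl K)
      = |r| ^ Module.finrank ℚ K := by
  show T1.adNorm K (rAdele250 r) = _
  unfold T1.adNorm
  have hfin : (∏ᶠ v : HeightOneSpectrum (𝓞 K), ‖(rAdele250 (K := K) r).2 v‖) = 1 := by
    have : ∀ v : HeightOneSpectrum (𝓞 K), ‖(rAdele250 (K := K) r).2 v‖ = 1 := by
      intro v
      rw [rAdele250_snd]
      show ‖(1 : v.adicCompletion K)‖ = 1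
      exact norm_one
    simp only [this]
    exact finprod_one
  rw [hfin, mul_one]
  simp only [rAdele250_fst, norm_rComp250]
  rw [Finset.prod_pow_eq_pow_sum, InfinitePlace.sum_mult_eq]

theorem rIdele250_mul (r s : ℝ) (hr : r ≠ 0) (hs : s ≠ 0) :
    rIdele250 (K := K) r hr * rIdele250 s hs = rIdele250 (r * s) (mul_ne_zero hr hs) := by
  apply Units.ext
  show rAdele250 (K := K) r * rAdele250 s = rAdele250 (r * s)
  exact rAdele250_mul r s

/-- The scalar matrix `r` at every infinite place, identity at the finite places. -/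
def zR250 (r : ℝ) (hr : r ≠ 0) : G K :=
  Units.map (Matrix.scalar (Fin 2) : Adl K →+* Matrix (Fin 2) (Fin 2) (Adl K)).toMonoidHom
    (rIdele250 r hr)

theorem zR250_val (r : ℝ) (hr : r ≠ 0) :
    ((zR250 (K := K) r hr : G K) : Matrix (Fin 2) (Fin 2) (Adl K))
      = Matrix.diagonal (fun _ => rAdele250 r) := rfl

theorem zR250_apply (r : ℝ) (hr : r ≠ 0) (i j : Fin 2) :
    ((zR250 (K := K) r hr : G K) : Matrix (Fin 2) (Fin 2) (Adl K)) i j
      = if i = j then rAdele250 r else 0 := by
  rw [zR250_val, Matrix.diagonal_apply]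

theorem zR250_congr {r s : ℝ} (h : r = s) (hr : r ≠ 0) (hs : s ≠ 0) :
    zR250 (K := K) r hr = zR250 s hs := by
  subst h
  rfl

theorem zR250_mul (r s : ℝ) (hr : r ≠ 0) (hs : s ≠ 0) :
    zR250 (K := K) r hr * zR250 s hs = zR250 (r * s) (mul_ne_zero hr hs) := by
  unfold zR250
  rw [← map_mul, rIdele250_mul]

theorem zR250_one : zR250 (K := K) 1 one_ne_zero = 1 := by
  apply Units.ext
  rw [zR250_val, rAdele250_one]
  exact Matrix.diagonal_one

theorem zR250_det (r : ℝ) (hr : r ≠ 0) :
    Matrix.GeneralLinearGroup.det (zR250 (K := K) r hr) = rIdele250 r hr * rIdele250 r hr := by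
  apply Units.ext
  rw [Matrix.GeneralLinearGroup.val_det_apply, zR250_val, Matrix.det_diagonal,
    Fin.prod_univ_two]
  rfl

/-- The scalars are central. -/
theorem zR250_comm (r : ℝ) (hr : r ≠ 0) (g : G K) :
    zR250 r hr * g = g * zR250 r hr := by
  apply Units.ext
  rw [Units.val_mul, Units.val_mul]
  exact (Matrix.scalar_commute (rAdele250 r) (fun _ => Commute.all _ _) _).eq

theorem trivAtFin_zR250 (r : ℝ) (hr : r ≠ 0) (v : HeightOneSpectrum (𝓞 K)) :
    TrivAtFin v (zR250 (K := K) r hr) := by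
  show finComp v (zR250 r hr) = 1
  refine Matrix.ext fun i j => ?_
  show (((zR250 r hr : G K) : Matrix (Fin 2) (Fin 2) (Adl K)) i j).2 v = _
  rw [zR250_apply]
  by_cases hij : i = j
  · rw [if_pos hij, rAdele250_snd, hij, Matrix.one_apply_eq]
    rfl
  · rw [if_neg hij, Matrix.one_apply_ne hij]
    rfl

theorem infComp_zR250 (r : ℝ) (hr : r ≠ 0) (w : InfinitePlace K) :
    infComp w (zR250 (K := K) r hr) = Matrix.diagonal (fun _ => (r : ℂ)) := by
  refine Matrix.ext fun i j => ?_
  show InfinitePlace.Completion.extensionEmbedding w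
    ((((zR250 r hr : G K) : Matrix (Fin 2) (Fin 2) (Adl K)) i j).1 w) = _
  rw [zR250_apply, Matrix.diagonal_apply]
  by_cases hij : i = j
  · rw [if_pos hij, if_pos hij, rAdele250_fst, ext_rComp250]
  · rw [if_neg hij, if_neg hij]
    show InfinitePlace.Completion.extensionEmbedding w (0 : w.Completion) = 0
    exact map_zero _

theorem isDiagPosScalar_zR250 (r : ℝ) (hr : 0 < r) :
    T2.IsDiagPosScalar (zR250 (K := K) r hr.ne') :=
  ⟨fun v => trivAtFin_zR250 r hr.ne' v, r, hr, fun w => infComp_zR250 r hr.ne' w⟩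

/-! ## 2. The module of the determinant -/

theorem countable_K250 (K : Type) [Field K] [NumberField K] : Countable K := by
  have e := (Module.finBasis ℚ K).equivFun
  exact e.injective.countable

theorem countable_GL250 (K : Type) [Field K] [NumberField K] : Countable (GL (Fin 2) K) := by
  have := countable_K250 K
  have hinj : Function.Injective (fun g : GL (Fin 2) K => fun i j : Fin 2 =>
      (g : Matrix (Fin 2) (Fin 2) K) i j) := by
    intro g h hgh
    apply Units.ext
    ext i j
    exact congrFun (congrFun hgh i) j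
  exact hinj.countable

/-- The module of the determinant, as a function on `GL₂(𝔸_K)`. -/
def detNorm250 (g : G K) : ℝ :=
  T1.adNorm K (Matrix.det (g : Matrix (Fin 2) (Fin 2) (Adl K)))

theorem detNorm250_eq (g : G K) :
    detNorm250 g = T1.adNorm K ((Matrix.GeneralLinearGroup.det g : (Adl K)ˣ) : Adl K) := by
  rw [Matrix.GeneralLinearGroup.val_det_apply]
  rfl

theorem mem_slab_iff250 (g : G K) : g ∈ T1.slab K ↔ 1 ≤ detNorm250 g ∧ detNorm250 g < 2 :=
  Iff.rfl

theorem detNorm250_mul (hN : T1.AdNormC K) (g h : G K) :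
    detNorm250 (g * h) = detNorm250 g * detNorm250 h := by
  rw [detNorm250_eq, detNorm250_eq, detNorm250_eq, map_mul]
  exact hN.2.1 _ _

theorem detNorm250_pos (hN : T1.AdNormC K) (g : G K) : 0 < detNorm250 g := by
  rw [detNorm250_eq]
  exact hN.1 _

theorem detNorm250_zR (hN : T1.AdNormC K) (r : ℝ) (hr : r ≠ 0) :
    detNorm250 (zR250 (K := K) r hr) = (|r| ^ Module.finrank ℚ K) ^ 2 := by
  rw [detNorm250_eq, zR250_det, hN.2.1, adNorm_rIdele250, sq]

theorem detNorm250_ratG (hN : T1.AdNormC K) (γ : GL (Fin 2) K) :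
    detNorm250 (T1.ratG K γ) = 1 := by
  rw [detNorm250_eq]
  have h := hN.2.2.1 (Matrix.GeneralLinearGroup.det γ)
  convert h using 2
  rw [Matrix.GeneralLinearGroup.val_det_apply]
  show Matrix.det ((algebraMap K (Adl K)).mapMatrix (γ : Matrix (Fin 2) (Fin 2) K)) = _
  rw [← RingHom.map_det]
  rfl

theorem continuous_detNorm250 (hN : T1.AdNormC K) : Continuous (detNorm250 (K := K)) := by
  have hdet : Continuous (fun g : G K => (Matrix.GeneralLinearGroup.det g : (Adl K)ˣ)) := by
    rw [Units.continuous_iff]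
    constructor
    · show Continuous fun g : G K => ((Matrix.GeneralLinearGroup.det g : (Adl K)ˣ) : Adl K)
      simp only [Matrix.GeneralLinearGroup.val_det_apply]
      exact (Units.continuous_val).matrix_det
    · show Continuous fun g : G K => (((Matrix.GeneralLinearGroup.det g)⁻¹ : (Adl K)ˣ) : Adl K)
      have : ∀ g : G K, (((Matrix.GeneralLinearGroup.det g)⁻¹ : (Adl K)ˣ) : Adl K)
          = Matrix.det ((g⁻¹ : G K) : Matrix (Fin 2) (Fin 2) (Adl K)) := by
        intro g
        rw [← map_inv, Matrix.GeneralLinearGroup.val_det_apply]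
      simp only [this]
      exact (Units.continuous_val.comp continuous_inv).matrix_det
  have h := hN.2.2.2.comp hdet
  have heq : (detNorm250 (K := K)) = (fun x : (Adl K)ˣ => T1.adNorm K (x : Adl K)) ∘
      (fun g : G K => (Matrix.GeneralLinearGroup.det g : (Adl K)ˣ)) := by
    funext g
    exact detNorm250_eq g
  rw [heq]
  exact h

/-- The open slab `1 < ‖det g‖ < 2`. -/
def openSlab250 (K : Type) [Field K] [NumberField K] : Set (G K) :=
  {g | 1 < detNorm250 g ∧ detNorm250 g < 2}

theorem isOpen_openSlab250 (hN : T1.AdNormC K) : IsOpen (openSlab250 K) := by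
  have h : openSlab250 K = detNorm250 ⁻¹' (Set.Ioo (1 : ℝ) 2) := rfl
  rw [h]
  exact isOpen_Ioo.preimage (continuous_detNorm250 hN)

theorem openSlab250_subset_slab : openSlab250 K ⊆ T1.slab K :=
  fun _ hg => ⟨hg.1.le, hg.2⟩

theorem finrank_pos250 (K : Type) [Field K] [NumberField K] : 0 < Module.finrank ℚ K :=
  Module.finrank_pos

/-- A positive real scalar with prescribed module of the determinant. -/
theorem exists_scalar_detNorm250 (hN : T1.AdNormC K) (t : ℝ) (ht : 0 < t) :
    ∃ r : ℝ, ∃ hr : 0 < r, detNorm250 (zR250 (K := K) r hr.ne') = t := by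
  have hn : Module.finrank ℚ K * 2 ≠ 0 := by
    have := finrank_pos250 K
    omega
  refine ⟨t ^ (((Module.finrank ℚ K * 2 : ℕ) : ℝ)⁻¹), Real.rpow_pos_of_pos ht _, ?_⟩
  rw [detNorm250_zR hN, abs_of_pos (Real.rpow_pos_of_pos ht _), ← pow_mul,
    Real.rpow_inv_natCast_pow ht.le hn]

/-! ## 3. The lattice `GL₂(K) × ζ^ℤ` -/

/-- The positive real number with `ρ ^ (2 [K : ℚ]) = 2`. -/
def rho250 (K : Type) [Field K] [NumberField K] : ℝ :=
  (2 : ℝ) ^ (((Module.finrank ℚ K * 2 : ℕ) : ℝ)⁻¹)

theorem rho250_pos (K : Type) [Field K] [NumberField K] : 0 < rho250 K :=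
  Real.rpow_pos_of_pos (by norm_num) _

theorem rho250_pow (K : Type) [Field K] [NumberField K] :
    rho250 K ^ (Module.finrank ℚ K * 2) = 2 := by
  have hn : Module.finrank ℚ K * 2 ≠ 0 := by
    have := finrank_pos250 K
    omega
  exact Real.rpow_inv_natCast_pow (by norm_num) hn

/-- `ζ_m`: the diagonal positive scalar `ρ ^ m`; the module of its determinant is `2 ^ m`. -/
def zeta250 (m : ℤ) : G K :=
  zR250 (rho250 K ^ m) (zpow_ne_zero m (rho250_pos K).ne')

theorem zeta250_add (m m' : ℤ) :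
    zeta250 (K := K) (m + m') = zeta250 m * zeta250 m' := by
  unfold zeta250
  rw [zR250_mul]
  exact zR250_congr (zpow_add₀ (rho250_pos K).ne' m m') _ _

theorem zeta250_zero : zeta250 (K := K) 0 = 1 := by
  unfold zeta250
  rw [← zR250_one]
  exact zR250_congr (zpow_zero _) _ _

theorem isDiagPosScalar_zeta250 (m : ℤ) : T2.IsDiagPosScalar (zeta250 (K := K) m) :=
  isDiagPosScalar_zR250 _ (zpow_pos (rho250_pos K) m)

theorem detNorm250_zeta (hN : T1.AdNormC K) (m : ℤ) :
    detNorm250 (zeta250 (K := K) m) = (2 : ℝ) ^ m := by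
  unfold zeta250
  rw [detNorm250_zR hN, abs_of_pos (zpow_pos (rho250_pos K) m), ← pow_mul,
    ← zpow_natCast, ← zpow_mul, mul_comm, zpow_mul, zpow_natCast, rho250_pow]

theorem zeta250_comm (m : ℤ) (g : G K) : zeta250 m * g = g * zeta250 m :=
  zR250_comm _ _ g

/-- The homomorphism `m ↦ ζ_m`. -/
def zetaHom250 (K : Type) [Field K] [NumberField K] : Multiplicative ℤ →* G K where
  toFun m := zeta250 (Multiplicative.toAdd m)
  map_one' := zeta250_zero
  map_mul' _ _ := zeta250_add _ _

/-- The homomorphism `(γ, m) ↦ γ ζ_m`. -/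
def phi250 (K : Type) [Field K] [NumberField K] : GL (Fin 2) K × Multiplicative ℤ →* G K :=
  MonoidHom.noncommCoprod (T1.ratG K) (zetaHom250 K)
    (fun γ m => (zeta250_comm (Multiplicative.toAdd m) (T1.ratG K γ)).symm)

theorem phi250_apply (γ : GL (Fin 2) K) (m : Multiplicative ℤ) :
    phi250 K (γ, m) = T1.ratG K γ * zeta250 (Multiplicative.toAdd m) := rfl

/-- The lattice `Λ = GL₂(K) · ζ^ℤ`. -/
def Lam250 (K : Type) [Field K] [NumberField K] : Subgroup (G K) := (phi250 K).range

theorem countable_Lam250 (K : Type) [Field K] [NumberField K] : Countable (Lam250 K) := by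
  have := countable_GL250 K
  exact (phi250 K).rangeRestrict_surjective.countable

theorem exists_zpow_slab250 (t : ℝ) (ht : 0 < t) :
    ∃ m : ℤ, 1 ≤ (2 : ℝ) ^ m * t ∧ (2 : ℝ) ^ m * t < 2 := by
  obtain ⟨k, hk1, hk2⟩ := exists_mem_Ico_zpow ht (one_lt_two (α := ℝ))
  have h2k : (0 : ℝ) < 2 ^ k := zpow_pos (by norm_num) k
  refine ⟨-k, ?_, ?_⟩
  · rw [zpow_neg, ← div_eq_inv_mul, le_div_iff₀ h2k, one_mul]
    exact hk1
  · rw [zpow_neg, ← div_eq_inv_mul, div_lt_iff₀ h2k, mul_comm, ← zpow_add_one₀ (by norm_num)]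
    exact hk2

theorem zpow_slab_unique250 (t : ℝ) (ht : 0 < t) (m m' : ℤ)
    (h1 : 1 ≤ (2 : ℝ) ^ m * t) (h2 : (2 : ℝ) ^ m * t < 2)
    (h1' : 1 ≤ (2 : ℝ) ^ m' * t) (h2' : (2 : ℝ) ^ m' * t < 2) : m = m' := by
  have key : ∀ a b : ℤ, 1 ≤ (2 : ℝ) ^ a * t → (2 : ℝ) ^ b * t < 2 → b ≤ a := by
    intro a b ha hb
    by_contra hlt
    rw [not_le] at hlt
    have h3 : (2 : ℝ) ^ (a + 1) ≤ 2 ^ b := zpow_le_zpow_right₀ (by norm_num) (by omega)
    have h4 : (2 : ℝ) ^ (a + 1) * t ≤ 2 ^ b * t := mul_le_mul_of_nonneg_right h3 ht.le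
    rw [zpow_add_one₀ (by norm_num)] at h4
    nlinarith
  exact le_antisymm (key m' m h1' h2) (key m m' h1 h2')

/-- Every element has exactly one translate under `Λ` in the fundamental domain of a frame. -/
theorem existsUnique_Lam250 (hN : T1.AdNormC K) (F : T2.Frame K) (y : G K) :
    ∃! l : Lam250 K, l • y ∈ F.D := by
  obtain ⟨m, hm1, hm2⟩ := exists_zpow_slab250 (detNorm250 y) (detNorm250_pos hN y)
  have hslab : zeta250 m * y ∈ T1.slab K := by
    rw [mem_slab_iff250, detNorm250_mul hN, detNorm250_zeta hN]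
    exact ⟨hm1, hm2⟩
  obtain ⟨γ, hγ, hγu⟩ := F.strict _ hslab
  refine ⟨⟨phi250 K (γ, Multiplicative.ofAdd m), ⟨(γ, Multiplicative.ofAdd m), rfl⟩⟩, ?_, ?_⟩
  · show phi250 K (γ, Multiplicative.ofAdd m) * y ∈ F.D
    rw [phi250_apply, mul_assoc]
    exact hγ
  · rintro ⟨l, ⟨γ', m'⟩, rfl⟩ hl
    have hl' : T1.ratG K γ' * (zeta250 (Multiplicative.toAdd m') * y) ∈ F.D := by
      have : phi250 K (γ', m') * y ∈ F.D := hl
      rwa [phi250_apply, mul_assoc] at this
    have hs := F.sub hl'
    rw [mem_slab_iff250, detNorm250_mul hN, detNorm250_ratG hN, one_mul, detNorm250_mul hN,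
      detNorm250_zeta hN] at hs
    have hmm : Multiplicative.toAdd m' = m :=
      zpow_slab_unique250 _ (detNorm250_pos hN y) _ _ hs.1 hs.2 hm1 hm2
    have hm'eq : m' = Multiplicative.ofAdd m := by
      rw [← hmm]
      rfl
    subst hm'eq
    have hγ' : γ' = γ := hγu γ' hl'
    subst hγ'
    rfl

/-- Functions of the class `IsAut0` are invariant under `Λ`. -/
theorem isAut0_Lam250 {f : G K → ℂ} (hf : H941.IsAut0 f) (l : Lam250 K) (y : G K) :
    f (l • y) = f y := by
  obtain ⟨l, ⟨γ, m⟩, rfl⟩ := l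
  show f (phi250 K (γ, m) * y) = f y
  rw [phi250_apply, mul_assoc, hf.2.2.1 γ, hf.2.2.2 _ (isDiagPosScalar_zeta250 _)]

/-! ## 4. The three properties of the pairing -/

/-- The integrand of the pairing is integrable on the domain of a frame. -/
theorem integrableOn_pair250 (F : T2.Frame K) {f₁ f₂ : G K → ℂ} (h₁ : H941.IsAut0 f₁)
    (h₂ : H941.IsAut0 f₂) :
    IntegrableOn (fun g => f₁ g * (starRingEnd ℂ) (f₂ g)) F.D F.μ := by
  have : BorelSpace (G K) := ⟨rfl⟩
  obtain ⟨C₁, hC₁⟩ := h₁.2.1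
  obtain ⟨C₂, hC₂⟩ := h₂.2.1
  have hcont : Continuous (fun g => f₁ g * (starRingEnd ℂ) (f₂ g)) :=
    h₁.1.mul (Complex.continuous_conj.comp h₂.1)
  refine Measure.integrableOn_of_bounded (M := C₁ * C₂) F.fin.ne hcont.aestronglyMeasurable
    (Filter.Eventually.of_forall fun g => ?_)
  rw [norm_mul, RCLike.norm_conj]
  exact mul_le_mul (hC₁ g) (hC₂ g) (norm_nonneg _) ((norm_nonneg _).trans (hC₁ g))

/-- Additivity in the first variable. -/
theorem pair_add250 (F : T2.Frame K) {f₁ f₂ h : G K → ℂ} (h₁ : H941.IsAut0 f₁)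
    (h₂ : H941.IsAut0 f₂) (hh : H941.IsAut0 h) :
    T2.pair F (fun x => f₁ x + f₂ x) h = T2.pair F f₁ h + T2.pair F f₂ h := by
  unfold T2.pair
  rw [← integral_add (integrableOn_pair250 F h₁ hh) (integrableOn_pair250 F h₂ hh)]
  refine integral_congr_ae (Filter.Eventually.of_forall fun g => ?_)
  show (f₁ g + f₂ g) * (starRingEnd ℂ) (h g) = _
  rw [add_mul]

/-- Definiteness. -/
theorem pair_definite250 (hT : T1.T1Out K) (F : T2.Frame K) {f : G K → ℂ}
    (hf : H941.IsAut0 f) (h0 : T2.pair F f f = 0) : ∀ x : G K, f x = 0 := by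
  have : BorelSpace (G K) := ⟨rfl⟩
  have := F.haar
  have hN := hT.adNorm
  have hint := integrableOn_pair250 F hf hf
  have hreal : ∀ g, f g * (starRingEnd ℂ) (f g) = ((Complex.normSq (f g) : ℝ) : ℂ) :=
    fun g => Complex.mul_conj (f g)
  have hintR : IntegrableOn (fun g => Complex.normSq (f g)) F.D F.μ := by
    have := hint.re
    refine this.congr (Filter.Eventually.of_forall fun g => ?_)
    show (f g * (starRingEnd ℂ) (f g)).re = Complex.normSq (f g)
    rw [hreal, Complex.ofReal_re]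
  have h0R : ∫ g in F.D, Complex.normSq (f g) ∂F.μ = 0 := by
    have h1 : T2.pair F f f = ((∫ g in F.D, Complex.normSq (f g) ∂F.μ : ℝ) : ℂ) := by
      unfold T2.pair
      simp only [hreal]
      exact integral_ofReal
    rw [h1] at h0
    exact_mod_cast h0
  have hae : (fun g => Complex.normSq (f g)) =ᵐ[F.μ.restrict F.D] 0 :=
    (setIntegral_eq_zero_iff_of_nonneg_ae
      (Filter.Eventually.of_forall fun g => Complex.normSq_nonneg _) hintR).1 h0R
  have hVopen : IsOpen {g : G K | f g ≠ 0} := isOpen_ne_fun hf.1 continuous_const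
  have hVD : F.μ ({g : G K | f g ≠ 0} ∩ F.D) = 0 := by
    have h2 : F.μ.restrict F.D {g : G K | f g ≠ 0} = 0 := by
      have h3 : ∀ᵐ g ∂(F.μ.restrict F.D), Complex.normSq (f g) = 0 := hae
      rw [ae_iff] at h3
      have h4 : {g : G K | f g ≠ 0} = {g : G K | ¬ Complex.normSq (f g) = 0} := by
        ext g
        show f g ≠ 0 ↔ ¬ Complex.normSq (f g) = 0
        rw [Complex.normSq_eq_zero]
      rw [h4]
      exact h3
    rwa [Measure.restrict_apply hVopen.measurableSet] at h2
  have hVslab : F.μ ({g : G K | f g ≠ 0} ∩ T1.slab K) = 0 := by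
    have hcnt := countable_GL250 K
    have hsub : {g : G K | f g ≠ 0} ∩ T1.slab K ⊆
        ⋃ γ : GL (Fin 2) K, (fun g : G K => T1.ratG K γ * g) ⁻¹'
          ({g : G K | f g ≠ 0} ∩ F.D) := by
      rintro g ⟨hg, hgs⟩
      obtain ⟨γ, hγ, -⟩ := F.strict g hgs
      refine Set.mem_iUnion.2 ⟨γ, ?_, hγ⟩
      show f (T1.ratG K γ * g) ≠ 0
      rw [hf.2.2.1 γ g]
      exact hg
    refine measure_mono_null hsub ?_
    refine measure_iUnion_null fun γ => ?_
    rw [measure_preimage_mul]
    exact hVD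
  have hempty : {g : G K | f g ≠ 0} ∩ openSlab250 K = ∅ := by
    have hop : IsOpen ({g : G K | f g ≠ 0} ∩ openSlab250 K) :=
      hVopen.inter (isOpen_openSlab250 hN)
    rw [← hop.measure_eq_zero_iff F.μ]
    exact measure_mono_null (Set.inter_subset_inter_right _ openSlab250_subset_slab) hVslab
  intro g
  by_contra hg
  have hpos : 0 < (3 / 2 : ℝ) / detNorm250 g := div_pos (by norm_num) (detNorm250_pos hN g)
  obtain ⟨r, hr, hrn⟩ := exists_scalar_detNorm250 hN _ hpos
  have hval : detNorm250 (zR250 r hr.ne' * g) = 3 / 2 := by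
    rw [detNorm250_mul hN, hrn, div_mul_cancel₀ _ (detNorm250_pos hN g).ne']
  have hmem : zR250 r hr.ne' * g ∈ {g : G K | f g ≠ 0} ∩ openSlab250 K := by
    refine ⟨?_, ?_⟩
    · show f (zR250 r hr.ne' * g) ≠ 0
      rw [hf.2.2.2 _ (isDiagPosScalar_zR250 r hr) g]
      exact hg
    · show 1 < detNorm250 (zR250 r hr.ne' * g) ∧ detNorm250 (zR250 r hr.ne' * g) < 2
      rw [hval]
      constructor <;> norm_num
  rw [hempty] at hmem
  exact hmem

/-- Invariance under all right translations. -/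
theorem pair_rt250 (hT : T1.T1Out K) (F : T2.Frame K) (g : G K) {f₁ f₂ : G K → ℂ}
    (h₁ : H941.IsAut0 f₁) (h₂ : H941.IsAut0 f₂) :
    T2.pair F (H941.rt g f₁) (H941.rt g f₂) = T2.pair F f₁ f₂ := by
  have : BorelSpace (G K) := ⟨rfl⟩
  have := F.haar
  have hN := hT.adNorm
  have hR : F.μ.IsMulRightInvariant := hT.unimod F.μ F.haar
  have hcnt := countable_Lam250 K
  have : SMulInvariantMeasure (Lam250 K) (G K) F.μ :=
    ⟨fun ⟨x, _⟩ _ h => Measure.IsMulLeftInvariant.smulInvariantMeasure.1 x h⟩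
  -- the two fundamental domains of `Λ`
  have hD : IsFundamentalDomain (Lam250 K) F.D F.μ :=
    IsFundamentalDomain.mk' F.meas.nullMeasurableSet (existsUnique_Lam250 hN F)
  have hmeas : MeasurableSet ((fun x : G K => x * g⁻¹) ⁻¹' F.D) :=
    (measurable_mul_const g⁻¹) F.meas
  have hDg : IsFundamentalDomain (Lam250 K) ((fun x : G K => x * g⁻¹) ⁻¹' F.D) F.μ := by
    refine IsFundamentalDomain.mk' hmeas.nullMeasurableSet fun y => ?_
    have h := existsUnique_Lam250 hN F (y * g⁻¹)
    have heq : ∀ l : Lam250 K, (l • y ∈ (fun x : G K => x * g⁻¹) ⁻¹' F.D)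
        ↔ l • (y * g⁻¹) ∈ F.D := by
      intro l
      show ((l : G K) * y) * g⁻¹ ∈ F.D ↔ (l : G K) * (y * g⁻¹) ∈ F.D
      rw [mul_assoc]
    simpa only [heq] using h
  -- the invariant function
  have hinv : ∀ (l : Lam250 K) (y : G K),
      (fun x => f₁ x * (starRingEnd ℂ) (f₂ x)) (l • y)
        = (fun x => f₁ x * (starRingEnd ℂ) (f₂ x)) y := by
    intro l y
    show f₁ (l • y) * (starRingEnd ℂ) (f₂ (l • y)) = f₁ y * (starRingEnd ℂ) (f₂ y)
    rw [isAut0_Lam250 h₁, isAut0_Lam250 h₂]
  have hkey := hD.setIntegral_eq hDg (f := fun x => f₁ x * (starRingEnd ℂ) (f₂ x)) hinv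
  -- change of variables
  have hcv := (measurePreserving_mul_right F.μ g).setIntegral_preimage_emb
    (measurableEmbedding_mulRight g) (fun x => f₁ x * (starRingEnd ℂ) (f₂ x))
    ((fun x : G K => x * g⁻¹) ⁻¹' F.D)
  have hpre : (fun x : G K => x * g) ⁻¹' ((fun x : G K => x * g⁻¹) ⁻¹' F.D) = F.D := by
    ext x
    show x * g * g⁻¹ ∈ F.D ↔ x ∈ F.D
    rw [mul_assoc, mul_inv_cancel, mul_one]
  rw [hpre] at hcv
  unfold T2.pair H941.rt
  rw [hkey]
  exact hcv

/-- **T2.10.13**: the Petersson pairing on the class `IsAut0`. -/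
theorem pairC250 (hT : T1.T1Out K) : H941.PairC K := fun F =>
  ⟨fun _ _ _ h₁ h₂ hh => pair_add250 F h₁ h₂ hh,
    fun _ hf h0 => pair_definite250 hT F hf h0,
    fun g _ _ h₁ h₂ => pair_rt250 hT F g h₁ h₂⟩

/-- **T2.10.13** (`Leaf13` of `LT/T2/H941/SmoSpec.lean`). -/
theorem leaf13_250 (K : Type) [Field K] [NumberField K] : H941.Leaf13 K :=
  fun hT => pairC250 hT

/-- Type check against the frozen Prop. -/
example (K : Type) [Field K] [NumberField K] : Fermat.Agent.LT.T2.H941.Leaf13 K := leaf13_250 K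

end Fermat.Agent.LT.T2.H250

end
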